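import Fermat.Agent.BurgessGeneral.PrimitiveRoot
import Fermat.Agent.CombinatorialSieve.Integers
import Fermat.Agent.PrimesMinusOne.BrunTitchmarsh

/-!
# A primitive root in a set with small character sums

If every `χ ≠ 1` modulo `p` has sum at most `κ |S| / (ω (p - 1) + 2) ^ 289` over a set `S` of
units, the sieve over `q ∣ p - 1` finds a primitive root in `S`.
-/

set_option autoImplicit false

noncomputable section

namespace FA.AlmostAllRoot

open Finset FA.FermatCount FA.BurgessGeneral FA.CombinatorialSieve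
open FA.PrimesMinusOne (invFun invFun_apply invFun_isMultiplicative)
open scoped Classical

variable {p : ℕ} [Fact p.Prime]

/-- The number of `d`-th powers in `S`. -/
def powCard (p : ℕ) [Fact p.Prime] (S : Finset ℕ) (d : ℕ) : ℝ :=
  ((S.filter fun n : ℕ => ∃ y : ZMod p, y ^ d = (n : ZMod p)).card : ℝ)

theorem abs_powCard_sub_le {S : Finset ℕ} (hS : ∀ n ∈ S, (n : ZMod p) ≠ 0) {d : ℕ}
    (hd : d ∣ p - 1) (hd0 : 0 < d) {E : ℝ} (hE0 : 0 ≤ E)
    (hE : ∀ χ : MulChar (ZMod p) ℂ, χ ≠ 1 → ‖∑ n ∈ S, χ (n : ZMod p)‖ ≤ E) :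
    |powCard p S d - (S.card : ℝ) / d| ≤ E := by
  have hsum : (∑ χ ∈ killed (ZMod p) d, ∑ n ∈ S, χ (n : ZMod p)) / (d : ℂ) =
      (powCard p S d : ℂ) := by
    rw [sum_comm, sum_div, powCard, Complex.ofReal_natCast, card_filter, Nat.cast_sum]
    refine sum_congr rfl fun n hn => ?_
    rw [card_roots_div hd hd0 _ (hS n hn)]
    split_ifs <;> simp
  have hone : ∑ n ∈ S, (1 : MulChar (ZMod p) ℂ) (n : ZMod p) = (S.card : ℂ) := by
    rw [sum_congr rfl fun n hn => MulChar.one_apply (Ne.isUnit (hS n hn))]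
    simp
  have hd' : (0 : ℝ) < d := Nat.cast_pos.2 hd0
  have hsub : ((powCard p S d - (S.card : ℝ) / d : ℝ) : ℂ) =
      (∑ χ ∈ (killed (ZMod p) d).erase 1, ∑ n ∈ S, χ (n : ZMod p)) / (d : ℂ) := by
    push_cast
    rw [← hsum, ← add_sum_erase _ _ one_mem_killed, hone]
    ring
  rw [← Real.norm_eq_abs, ← Complex.norm_real, hsub, norm_div, Complex.norm_natCast,
    div_le_iff₀ hd']
  refine (norm_sum_le_of_le _ fun χ hχ => hE χ (mem_erase.1 hχ).1).trans ?_
  rw [sum_const, nsmul_eq_mul, mul_comm E]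
  refine mul_le_mul_of_nonneg_right (Nat.cast_le.2 ((card_le_card (erase_subset _ _)).trans ?_)) hE0
  rw [card_killed, ZMod.card, Nat.gcd_eq_left hd]

/-- The primes `q < Z` dividing `p - 1`. -/
def lowPrimes (p : ℕ) (Z : ℝ) : Finset ℕ :=
  (p - 1).primeFactors.filter fun q : ℕ => (q : ℝ) < Z

/-- The product of the low primes `q` of which `n` is a power residue. -/
def residueIdx (p : ℕ) [Fact p.Prime] (Z : ℝ) (n : ℕ) : ℕ :=
  ∏ q ∈ (lowPrimes p Z).filter (fun q : ℕ => ∃ y : ZMod p, y ^ q = (n : ZMod p)), q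

omit [Fact p.Prime] in
theorem prime_of_lowPrimes {Z : ℝ} {q : ℕ} (hq : q ∈ lowPrimes p Z) : q.Prime :=
  Nat.prime_of_mem_primeFactors (mem_filter.1 hq).1

/-- The sieve on the power residues in `S`. -/
def countSieve (p : ℕ) [Fact p.Prime] (S : Finset ℕ) (Z : ℝ) : BoundingSieve where
  support := S.image (residueIdx p Z)
  prodPrimes := ∏ q ∈ lowPrimes p Z, q
  prodPrimes_squarefree := squarefree_prod_of_pairwise_isCoprime
    (fun _ ha _ hb h => Nat.coprime_iff_isRelPrime.1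
      ((Nat.coprime_primes (prime_of_lowPrimes ha) (prime_of_lowPrimes hb)).2 h))
    fun _ ha => (prime_of_lowPrimes ha).squarefree
  weights m := ((S.filter fun n => residueIdx p Z n = m).card : ℝ)
  weights_nonneg _ := Nat.cast_nonneg _
  totalMass := (S.card : ℝ)
  nu := invFun
  nu_mult := invFun_isMultiplicative
  nu_pos_of_prime q hq _ := by
    rw [invFun_apply]
    exact inv_pos.2 (Nat.cast_pos.2 hq.pos)
  nu_lt_one_of_prime q hq _ := by
    rw [invFun_apply]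
    exact inv_lt_one_of_one_lt₀ (Nat.one_lt_cast.2 hq.one_lt)

theorem primeFactors_countSieve (S : Finset ℕ) (Z : ℝ) :
    (countSieve p S Z).prodPrimes.primeFactors = lowPrimes p Z :=
  Nat.primeFactors_prod fun _ hq => prime_of_lowPrimes hq

/-- Sums over the fibres of `residueIdx`. -/
theorem sum_fibre_card (S : Finset ℕ) (Z : ℝ) (φ : ℕ → Prop) :
    (∑ m ∈ S.image (residueIdx p Z), if φ m then
        ((S.filter fun n => residueIdx p Z n = m).card : ℝ) else 0) =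
      ∑ n ∈ S, if φ (residueIdx p Z n) then 1 else 0 := by
  rw [← sum_fiberwise_of_maps_to (g := residueIdx p Z) (t := S.image (residueIdx p Z))
    fun n hn => mem_image_of_mem _ hn]
  refine sum_congr rfl fun m _ => ?_
  split_ifs with h
  · rw [sum_congr rfl fun n hn => if_pos (by rw [(mem_filter.1 hn).2]; exact h)]
    simp
  · exact (sum_eq_zero fun n hn => if_neg (by rw [(mem_filter.1 hn).2]; exact h)).symm

theorem dvd_residueIdx_iff {S : Finset ℕ} {Z : ℝ} {d n : ℕ}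
    (hd : d ∣ (countSieve p S Z).prodPrimes) (hn : (n : ZMod p) ≠ 0) :
    d ∣ residueIdx p Z n ↔ ∃ y : ZMod p, y ^ d = (n : ZMod p) := by
  have hsq := (countSieve p S Z).prodPrimes_squarefree
  have hdsq := hsq.squarefree_of_dvd hd
  have hsub : d.primeFactors ⊆ lowPrimes p Z := by
    rw [← primeFactors_countSieve (p := p) S Z]
    exact Nat.primeFactors_mono hd hsq.ne_zero
  obtain ⟨A, hA⟩ : ∃ A, A = (lowPrimes p Z).filter
      (fun q : ℕ => ∃ y : ZMod p, y ^ q = (n : ZMod p)) := ⟨_, rfl⟩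
  have hAm : ∀ q : ℕ, q ∈ A ↔ q ∈ lowPrimes p Z ∧ ∃ y : ZMod p, y ^ q = (n : ZMod p) := by
    intro q
    rw [hA, mem_filter]
  have hAp : ∀ q ∈ A, q.Prime := fun q hq => prime_of_lowPrimes ((hAm q).1 hq).1
  have e : residueIdx p Z n = ∏ q ∈ A, q := by rw [residueIdx, hA]
  rw [e]
  constructor
  · intro h
    have hm := Nat.primeFactors_mono h (prod_ne_zero_iff.2 fun q hq => (hAp q hq).ne_zero)
    rw [Nat.primeFactors_prod hAp] at hm
    have h2 := exists_pow_prod_eq hn (fun q hq => Nat.prime_of_mem_primeFactors hq)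
      fun q hq => ((hAm q).1 (hm hq)).2
    rwa [Nat.prod_primeFactors_of_squarefree hdsq] at h2
  · rintro ⟨y, hy⟩
    rw [← Nat.prod_primeFactors_of_squarefree hdsq]
    refine prod_dvd_prod_of_subset _ _ _ fun q hq => ?_
    rw [hAm]
    obtain ⟨k, hk⟩ := Nat.dvd_of_mem_primeFactors hq
    exact ⟨hsub hq, y ^ k, by rw [← pow_mul, mul_comm, ← hk, hy]⟩

theorem countSieve_multSum {S : Finset ℕ} (hS : ∀ n ∈ S, (n : ZMod p) ≠ 0) {Z : ℝ} {d : ℕ}
    (hd : d ∣ (countSieve p S Z).prodPrimes) :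
    (countSieve p S Z).multSum d = powCard p S d := by
  have h := sum_fibre_card (p := p) S Z fun m => d ∣ m
  rw [BoundingSieve.multSum]
  have h2 : (∑ n ∈ S, if d ∣ residueIdx p Z n then (1 : ℝ) else 0) = powCard p S d := by
    rw [powCard, card_filter, Nat.cast_sum]
    refine sum_congr rfl fun n hn => ?_
    rw [Nat.cast_ite, Nat.cast_one, Nat.cast_zero]
    exact if_congr (dvd_residueIdx_iff hd (hS n hn)) rfl rfl
  refine Eq.trans ?_ h2
  convert h using 3 <;> rfl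

theorem countSieve_siftedSum {S : Finset ℕ} (hS : ∀ n ∈ S, (n : ZMod p) ≠ 0) (Z : ℝ) :
    (countSieve p S Z).siftedSum = ∑ n ∈ S,
      if ∀ q ∈ lowPrimes p Z, ¬ ∃ y : ZMod p, y ^ q = (n : ZMod p) then (1 : ℝ) else 0 := by
  obtain ⟨P, hP⟩ : ∃ P, P = (countSieve p S Z).prodPrimes := ⟨_, rfl⟩
  have h := sum_fibre_card (p := p) S Z fun m => Nat.Coprime P m
  rw [BoundingSieve.siftedSum]
  refine Eq.trans (b := ∑ n ∈ S, if Nat.Coprime P (residueIdx p Z n) then (1 : ℝ) else 0)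
    (by rw [hP] at h ⊢; convert h using 3 <;> rfl) ?_
  refine sum_congr rfl fun n hn => if_congr ⟨fun hc q hq hy => ?_, fun hall => ?_⟩ rfl rfl
  · have hqP : q ∣ (countSieve p S Z).prodPrimes := dvd_prod_of_mem _ hq
    exact (prime_of_lowPrimes hq).not_dvd_one (hc ▸ Nat.dvd_gcd (hP ▸ hqP)
      ((dvd_residueIdx_iff hqP (hS n hn)).2 hy))
  · by_contra hc
    obtain ⟨q, hq, hqP, hqn⟩ := Nat.Prime.not_coprime_iff_dvd.1 hc
    rw [hP] at hqP
    refine hall q ?_ ((dvd_residueIdx_iff hqP (hS n hn)).1 hqn)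
    rw [← primeFactors_countSieve S Z, Nat.mem_primeFactors]
    exact ⟨hq, hqP, (countSieve p S Z).prodPrimes_squarefree.ne_zero⟩

/-- With no primitive root in `S`, every sifted `n` is a power residue for a large prime. -/
theorem countSieve_siftedSum_le {S : Finset ℕ} (hS : ∀ n ∈ S, (n : ZMod p) ≠ 0) {Z : ℝ}
    (hno : ∀ n ∈ S, ¬ NoPrimePower (n : ZMod p)) :
    (countSieve p S Z).siftedSum ≤
      ∑ q ∈ (p - 1).primeFactors.filter (fun q : ℕ => Z ≤ (q : ℝ)), powCard p S q := by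
  simp only [countSieve_siftedSum hS, powCard, card_filter, Nat.cast_sum]
  rw [sum_comm]
  refine sum_le_sum fun n hn => ?_
  split_ifs with hA
  · obtain ⟨q, hq, hy⟩ : ∃ q ∈ (p - 1).primeFactors, ∃ y : ZMod p, y ^ q = (n : ZMod p) := by
      have h := hno n hn
      simp only [NoPrimePower, not_and, not_forall, not_not] at h
      obtain ⟨q, hq, hy⟩ := h (hS n hn)
      exact ⟨q, hq, hy⟩
    have hmem : q ∈ (p - 1).primeFactors.filter (fun q : ℕ => Z ≤ (q : ℝ)) :=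
      mem_filter.2 ⟨hq, not_lt.1 fun hlt => hA q (mem_filter.2 ⟨hq, hlt⟩) hy⟩
    refine le_trans ?_ (single_le_sum (fun i _ => Nat.cast_nonneg _) hmem)
    simp [hy]
  · exact sum_nonneg fun i _ => Nat.cast_nonneg _

theorem countSieve_dimension (S : Finset ℕ) (Z : ℝ) :
    DimensionBound (countSieve p S Z).prodPrimes.primeFactors (countSieve p S Z).nu Z 1
      (Real.exp 13) := by
  rw [primeFactors_countSieve, show (13 : ℝ) = 11 * 1 + 2 by norm_num,
    show (countSieve p S Z).nu = invFun from rfl]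
  refine dimensionBound_of_le zero_le_one zero_le_two (fun q hq =>
    ⟨prime_of_lowPrimes hq, (mem_filter.1 hq).2⟩) (fun q hq => ?_) fun q hq => ?_
  · rw [invFun_apply]
    exact ⟨by positivity, inv_lt_one_of_one_lt₀
      (Nat.one_lt_cast.2 (prime_of_lowPrimes hq).one_lt)⟩
  · have h2 : (2 : ℝ) ≤ q := Nat.ofNat_le_cast.2 (prime_of_lowPrimes hq).two_le
    rw [invFun_apply]
    rw [show (q : ℝ)⁻¹ / (1 - (q : ℝ)⁻¹) = 1 / ((q : ℝ) - 1) by field_simp,
      show (1 : ℝ) / q + 2 / (q : ℝ) ^ 2 = ((q : ℝ) + 2) / (q : ℝ) ^ 2 by field_simp,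
      div_le_div_iff₀ (by linarith) (by positivity)]
    nlinarith

theorem sieveProduct_countSieve_ge (S : Finset ℕ) (Z : ℝ) :
    ∏ q ∈ (range ⌈Z⌉₊).filter Nat.Prime, (1 - (q : ℝ)⁻¹) ≤ sieveProduct (countSieve p S Z) := by
  rw [sieveProduct, primeFactors_countSieve]
  show _ ≤ ∏ q ∈ lowPrimes p Z, (1 - (q : ℝ)⁻¹)
  have hsub : lowPrimes p Z ⊆ (range ⌈Z⌉₊).filter Nat.Prime := fun q hq =>
    mem_filter.2 ⟨mem_range.2 (Nat.lt_ceil.2 (mem_filter.1 hq).2), prime_of_lowPrimes hq⟩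
  have h01 : ∀ q : ℕ, q.Prime → 0 ≤ 1 - (q : ℝ)⁻¹ ∧ 1 - (q : ℝ)⁻¹ ≤ 1 := fun q hq =>
    ⟨sub_nonneg.2 (inv_le_one_of_one_le₀ (Nat.one_le_cast.2 hq.one_le)),
      sub_le_self 1 (by positivity)⟩
  rw [← prod_sdiff hsub]
  refine mul_le_of_le_one_left (prod_nonneg fun q hq => (h01 q (prime_of_lowPrimes hq)).1) ?_
  exact prod_le_one (fun q hq => (h01 q (mem_filter.1 (mem_sdiff.1 hq).1).2).1)
    fun q hq => (h01 q (mem_filter.1 (mem_sdiff.1 hq).1).2).2

theorem countSieve_remSum_le {S : Finset ℕ} (hS : ∀ n ∈ S, (n : ZMod p) ≠ 0) {Z s E : ℝ}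
    (hZ : 0 ≤ Z) (hE0 : 0 ≤ E)
    (hE : ∀ d : ℕ, d ∣ p - 1 → 0 < d → |powCard p S d - (S.card : ℝ) / d| ≤ E) :
    remSum (countSieve p S Z) (Z ^ s) ≤ Z ^ s * E := by
  rw [remSum]
  refine (sum_le_card_nsmul _ _ E fun d hd => ?_).trans ?_
  · have hd' := Nat.dvd_of_mem_divisors (mem_filter.1 hd).1
    rw [BoundingSieve.rem, countSieve_multSum hS hd',
      show (countSieve p S Z).nu d = (d : ℝ)⁻¹ from invFun_apply d,
      show (countSieve p S Z).totalMass = (S.card : ℝ) from rfl, inv_mul_eq_div]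
    refine hE d (hd'.trans ?_) (Nat.pos_of_mem_divisors (mem_filter.1 hd).1)
    exact (prod_dvd_prod_of_subset _ _ _ (filter_subset _ _)).trans (Nat.prod_primeFactors_dvd _)
  · rw [nsmul_eq_mul]
    refine mul_le_mul_of_nonneg_right
      (le_trans ?_ (Nat.floor_le (Real.rpow_nonneg hZ s))) hE0
    refine Nat.cast_le.2 ((card_le_card (t := Icc 1 ⌊Z ^ s⌋₊) fun d hd => ?_).trans
      (Nat.card_Icc 1 _).le)
    rw [mem_filter] at hd
    exact mem_Icc.2 ⟨Nat.pos_of_mem_divisors hd.1, Nat.le_floor hd.2.le⟩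

/-- **Small character sums give a primitive root.** -/
theorem exists_root_of_small_sums : ∃ κ : ℝ, 0 < κ ∧ ∀ (p : ℕ) [Fact p.Prime] (S : Finset ℕ),
    S.Nonempty → (∀ n ∈ S, (n : ZMod p) ≠ 0) →
    (∀ χ : MulChar (ZMod p) ℂ, χ ≠ 1 → ‖∑ n ∈ S, χ (n : ZMod p)‖ ≤
      κ / (((p - 1).primeFactors.card : ℝ) + 2) ^ 289 * S.card) →
    ∃ n ∈ S, orderOf (n : ZMod p) = p - 1 := by
  obtain ⟨c, _, hc, hmert⟩ := exists_mertens_product
  obtain ⟨A, hA⟩ : ∃ A, A = 8 / c + 1 := ⟨_, rfl⟩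
  have hA1 : 1 ≤ A := by rw [hA]; linarith [div_pos (show (0 : ℝ) < 8 by norm_num) hc]
  refine ⟨c / (32 * A ^ 289), by positivity, fun p _ S hne hS hsmall => ?_⟩
  by_contra! hno
  have hno' : ∀ n ∈ S, ¬ NoPrimePower (n : ZMod p) := fun n hn h =>
    hno n hn (orderOf_eq_of_noPrimePower h)
  obtain ⟨w, hw⟩ : ∃ w : ℝ, w = ((p - 1).primeFactors.card : ℝ) := ⟨_, rfl⟩
  have hw0 : 0 ≤ w := hw ▸ Nat.cast_nonneg _
  obtain ⟨R, hR⟩ : ∃ R, R = A * (w + 2) := ⟨_, rfl⟩
  have hwR : w + 2 ≤ R := by rw [hR]; exact le_mul_of_one_le_left (by linarith) hA1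
  have hcR : 8 * w ≤ c * R := by
    have e : c * R = (8 + c) * (w + 2) := by
      rw [hR, hA]
      field_simp
    rw [e]
    nlinarith
  have hR2 : 2 ≤ R := by linarith
  obtain ⟨E, hEdef⟩ : ∃ E : ℝ, E = c / (32 * R ^ 289) * S.card := ⟨_, rfl⟩
  have hE0 : 0 ≤ E := hEdef ▸ by positivity
  rw [← hw, show c / (32 * A ^ 289) / (w + 2) ^ 289 = c / (32 * R ^ 289) by
    rw [hR, mul_pow, div_div, mul_assoc], ← hEdef] at hsmall
  have hpow : ∀ d : ℕ, d ∣ p - 1 → 0 < d → |powCard p S d - (S.card : ℝ) / d| ≤ E :=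
    fun d hd hd0 => abs_powCard_sub_le hS hd hd0 hE0 hsmall
  obtain ⟨Z, hZ⟩ : ∃ Z, Z = R ^ 2 := ⟨_, rfl⟩
  have hZ2 : 2 ≤ Z := by rw [hZ]; nlinarith
  have hlogZ : 0 < Real.log Z := Real.log_pos (by linarith)
  have hlogR : Real.log Z ≤ 2 * R := by
    rw [hZ, Real.log_pow]
    push_cast
    linarith [Real.log_le_sub_one_of_pos (show 0 < R by linarith)]
  obtain ⟨U, hU⟩ : ∃ U : ℝ, U = S.card := ⟨_, rfl⟩
  have hU0 : 0 < U := hU ▸ Nat.cast_pos.2 hne.card_pos
  have hexp : 20 * Real.exp ((10 : ℕ) : ℝ) * Real.exp 13 ^ 10 * Real.exp (-(144 : ℝ)) ≤ 1 / 2 := by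
    rw [← Real.exp_nat_mul, show ∀ a b c : ℝ, 20 * a * b * c = 20 * (a * b * c) from
      fun a b c => by ring, ← Real.exp_add, ← Real.exp_add]
    have h4 : Real.exp 4 * Real.exp (-4) = 1 := by rw [← Real.exp_add]; norm_num
    have h54 : (40 : ℝ) ≤ Real.exp 4 := by
      rw [show Real.exp 4 = Real.exp 1 ^ 4 by rw [← Real.exp_nat_mul]; norm_num]
      linarith [pow_le_pow_left₀ (by norm_num) Real.exp_one_gt_d9.le 4,
        show (40 : ℝ) ≤ (2.7182818283 : ℝ) ^ 4 by norm_num]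
    norm_num at h4 ⊢
    nlinarith [Real.exp_pos (-4 : ℝ)]
  have hsieve := half_le_siftedSum (countSieve p S Z) (κ := 1) (β := 10) (K := Real.exp 13)
    (s := 144) (Nat.cast_nonneg _) (fun q hq => by
      rw [primeFactors_countSieve] at hq
      exact (mem_filter.1 hq).2) hZ2 zero_le_one (by norm_num) (by norm_num)
    (Real.one_le_exp (by norm_num)) (by norm_num) hexp (countSieve_dimension S Z)
  have hrem := countSieve_remSum_le (Z := Z) (s := 144) hS (by linarith) hE0 hpow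
  rw [show Z ^ (144 : ℝ) = R ^ 288 by
    rw [show (144 : ℝ) = ((144 : ℕ) : ℝ) by norm_num, Real.rpow_natCast, hZ, ← pow_mul]]
    at hsieve hrem
  rw [show (countSieve p S Z).totalMass = U from hU.symm] at hsieve
  have hV : c / Real.log Z ≤ sieveProduct (countSieve p S Z) :=
    (hmert Z hZ2).1.trans (sieveProduct_countSieve_ge S Z)
  have hlarge : ∑ q ∈ (p - 1).primeFactors.filter (fun q : ℕ => Z ≤ (q : ℝ)), powCard p S q ≤
      w * (U / Z + E) := by
    refine (sum_le_card_nsmul _ _ (U / Z + E) fun q hq => ?_).trans ?_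
    · rw [mem_filter] at hq
      have h1 := (abs_le.1 (hpow q (Nat.dvd_of_mem_primeFactors hq.1)
        (Nat.prime_of_mem_primeFactors hq.1).pos)).2
      have h2 : (S.card : ℝ) / q ≤ U / Z :=
        hU ▸ div_le_div_of_nonneg_left (hU ▸ hU0.le) (by linarith) hq.2
      linarith
    · rw [nsmul_eq_mul]
      exact mul_le_mul_of_nonneg_right (hw ▸ Nat.cast_le.2 (card_filter_le _ _)) (by positivity)
  have hwZ : w / Z ≤ c / (4 * Real.log Z) := by
    rw [div_le_div_iff₀ (by linarith) (by positivity)]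
    calc w * (4 * Real.log Z) ≤ w * (4 * (2 * R)) := by gcongr
      _ = 8 * w * R := by ring
      _ ≤ c * R * R := by gcongr
      _ = c * Z := by rw [hZ]; ring
  have hnum : (R ^ 288 + w) * E < U * (c / (4 * Real.log Z)) := by
    rw [mul_div_assoc', lt_div_iff₀ (by positivity), hEdef, ← hU]
    have hsum : R ^ 288 + w ≤ 2 * R ^ 288 := by
      linarith [le_self_pow₀ (show 1 ≤ R by linarith) (show 288 ≠ 0 by norm_num)]
    calc (R ^ 288 + w) * (c / (32 * R ^ 289) * U) * (4 * Real.log Z)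
        ≤ 2 * R ^ 288 * (c / (32 * R ^ 289) * U) * (4 * (2 * R)) := by gcongr
      _ = U * c / 2 := by
          rw [pow_succ]
          field_simp
          ring
      _ < U * c := half_lt_self (by positivity)
  have hmain : U * (c / (4 * Real.log Z)) ≤
      U * sieveProduct (countSieve p S Z) / 2 - w * (U / Z) := by
    have h1 := mul_le_mul_of_nonneg_left hV hU0.le
    have h2 := mul_le_mul_of_nonneg_left hwZ hU0.le
    have e : U * (c / (4 * Real.log Z)) = U * (c / Real.log Z) / 4 := by ring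
    have e' : w * (U / Z) = U * (w / Z) := by ring
    linarith
  have hsift := countSieve_siftedSum_le (Z := Z) hS hno'
  linarith

end FA.AlmostAllRoot

end
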