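import Fermat.Agent.AlmostAllPrimitiveRoot.Moments
import Fermat.Agent.AlmostAllPrimitiveRoot.Sieve
import Fermat.Agent.GRHProgressions.Classes
import Mathlib.NumberTheory.Chebyshev
import Mathlib.Analysis.SpecialFunctions.Pow.Asymptotics

/-!
# All but `X ^ ε` primes `p ≤ X` have a prime primitive root `≤ (log p) ^ B`

`y = ⌈log X⌉ ^ b` and `k` least with `X ² ≤ y ^ k`: the large sieve leaves
`y X ^ (1162 / b)` primes with a character sum over the primes up to `y` above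
`κ π y / (3 log X) ^ 289`, and every other `p > y` has a primitive root among them.
-/

set_option autoImplicit false
set_option exponentiation.threshold 600

noncomputable section

namespace FA.AlmostAllRoot

open Finset Filter

theorem primes_card_ge {n : ℕ} (hn : 64 ≤ n) :
    (n : ℝ) / (3 * Real.log n) ≤ ((Nat.primesLE n).card : ℝ) := by
  have hn64 : (64 : ℝ) ≤ n := by exact_mod_cast hn
  have hlog : 0 < Real.log n := Real.log_pos (by linarith)
  rw [show (Nat.primesLE n).card = Nat.primeCounting n by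
    rw [Nat.primesLE_card_eq_primeCounting]]
  refine le_trans ?_ (Chebyshev.pi_ge n)
  have hsmall : Real.log ((n : ℝ) + 1) ≤ 0.3 * n := by
    have h0 : (0 : ℝ) < n + 1 := by linarith
    have h1 := Real.log_le_sub_one_of_pos (show (0 : ℝ) < (n + 1) / 8 by positivity)
    rw [Real.log_div h0.ne' (by norm_num), show (8 : ℝ) = 2 ^ 3 by norm_num, Real.log_pow] at h1
    push_cast at h1
    linarith [Real.log_two_lt_d9]
  rw [div_le_div_iff₀ (by positivity) hlog]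
  have hb : (n : ℝ) / 3 ≤ n * Real.log 2 - Real.log (n + 1) := by
    nlinarith [Real.log_two_gt_d9]
  nlinarith [mul_le_mul_of_nonneg_right hb hlog.le]

/-- The exceptional primes of the large sieve. -/
theorem exists_card_bad_le {κ : ℝ} (hκ : 0 < κ) (b : ℕ) (hb : 600 ≤ b) :
    ∃ M₀ : ℕ, ∀ X M : ℕ, 2 ≤ X → M₀ ≤ M → Real.log X ≤ M →
      ((badPrimes (Nat.primesLE (M ^ b)) X
        (κ / (3 * (M : ℝ)) ^ 289 * (Nat.primesLE (M ^ b)).card)).card : ℝ) ≤
          2 * (M : ℝ) ^ b * (X : ℝ) ^ ((1162 : ℝ) / b) := by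
  obtain ⟨K, hK⟩ : ∃ K : ℝ, K = 9 * 3 ^ 578 * b / κ ^ 2 := ⟨_, rfl⟩
  refine ⟨⌈K⌉₊ + 64, fun X M hX hM hlog => ?_⟩
  have hM64 : 64 ≤ M := by omega
  have hKM : K ≤ M := (Nat.le_ceil K).trans (Nat.cast_le.2 (by omega))
  have hMr : (64 : ℝ) ≤ M := Nat.ofNat_le_cast.2 hM64
  obtain ⟨y, hy⟩ : ∃ y, y = M ^ b := ⟨_, rfl⟩
  have hMy : M ≤ y := hy ▸ Nat.le_self_pow (by omega) M
  have hy1 : 1 < y := by omega
  obtain ⟨k, hk⟩ : ∃ k, k = Nat.clog y (X * X) := ⟨_, rfl⟩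
  have hXX : 1 < X * X := Nat.one_lt_mul_iff.2 ⟨by omega, by omega, Or.inl (by omega)⟩
  have hk0 : 0 < k := hk ▸ Nat.clog_pos hy1 hXX
  have hup : X * X ≤ y ^ k := hk ▸ Nat.le_pow_clog hy1 _
  have hlow : y ^ (k - 1) < X * X := by
    have h := Nat.pow_pred_clog_lt_self hy1 hXX
    rw [← hk] at h
    simpa using h
  have hupR : (X : ℝ) * X ≤ (y : ℝ) ^ k := by exact_mod_cast hup
  have hlowR : (y : ℝ) ^ (k - 1) ≤ (X : ℝ) * X := by exact_mod_cast hlow.le
  have hX2 : (2 : ℝ) ≤ X := Nat.ofNat_le_cast.2 hX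
  have hy64 : (64 : ℝ) ≤ y := hMr.trans (Nat.cast_le.2 hMy)
  have hkM : (k : ℝ) ≤ 3 * M := by
    have h := Real.log_le_log (by positivity) hlowR
    rw [Real.log_pow, Real.log_mul (by linarith) (by linarith), Nat.cast_sub (by omega)] at h
    push_cast at h
    have h1 : 1 ≤ Real.log y := by
      rw [← Real.log_exp 1]
      exact Real.log_le_log (Real.exp_pos 1) (by linarith [Real.exp_one_lt_d9])
    have h2 : (1 : ℝ) ≤ k := Nat.one_le_cast.2 hk0
    nlinarith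
  obtain ⟨P, hP⟩ : ∃ P, P = Nat.primesLE y := ⟨_, rfl⟩
  rw [← hy, ← hP]
  have hPcard : (y : ℝ) ≤ 3 * b * M * P.card := by
    have h := hP ▸ primes_card_ge (show 64 ≤ y by omega)
    have hl : Real.log y ≤ b * M := by
      rw [hy, Nat.cast_pow, Real.log_pow]
      exact mul_le_mul_of_nonneg_left ((Real.log_le_sub_one_of_pos (by linarith)).trans
        (by linarith)) (Nat.cast_nonneg b)
    rw [div_le_iff₀ (mul_pos three_pos (Real.log_pos (by linarith)))] at h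
    refine h.trans ?_
    calc (P.card : ℝ) * (3 * Real.log y) ≤ P.card * (3 * (b * M)) := by gcongr
      _ = _ := by ring
  have hP0 : (0 : ℝ) < P.card := by
    by_contra h
    have h0 : (P.card : ℝ) = 0 := le_antisymm (not_lt.1 h) (Nat.cast_nonneg _)
    rw [h0, mul_zero] at hPcard
    linarith
  obtain ⟨δ, hδ⟩ : ∃ δ, δ = κ / (3 * (M : ℝ)) ^ 289 := ⟨_, rfl⟩
  rw [← hδ]
  have hδ0 : 0 < δ := hδ ▸ by positivity
  have hbad := card_badPrimes_le (P := P) (y := y) (fun l hl => by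
    rw [hP, Nat.mem_primesLE] at hl
    exact ⟨hl.2, hl.1⟩) X k (T := δ * P.card) (by positivity)
  have hfac : (k.factorial : ℝ) ≤ (k : ℝ) ^ k := by exact_mod_cast Nat.factorial_le_pow k
  have hsum : (y : ℝ) ^ k + (X : ℝ) * X ≤ 2 * y * ((X : ℝ) * X) := by
    have : (y : ℝ) ^ k ≤ y * ((X : ℝ) * X) := by
      rw [show (y : ℝ) ^ k = y * (y : ℝ) ^ (k - 1) by rw [← pow_succ']; congr 1; omega]
      exact mul_le_mul_of_nonneg_left hlowR (by linarith)
    nlinarith [mul_nonneg (show 0 ≤ (y : ℝ) - 1 by linarith)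
      (show 0 ≤ (X : ℝ) * X by positivity)]
  have hbound : ((badPrimes P X (δ * P.card)).card : ℝ) ≤
      2 * y * ((X : ℝ) * X) * ((k : ℝ) / (δ ^ 2 * P.card)) ^ k := by
    rw [div_pow, mul_div_assoc', le_div_iff₀ (by positivity)]
    refine le_of_mul_le_mul_right ?_ (pow_pos hP0 k)
    have h := hbad.trans (mul_le_mul hsum (mul_le_mul_of_nonneg_right hfac (by positivity))
      (by positivity) (by positivity))
    rw [show (δ * (P.card : ℝ)) ^ (2 * k) = (δ ^ 2 * P.card) ^ k * (P.card : ℝ) ^ k by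
      rw [← mul_pow, pow_mul]; ring_nf] at h
    linarith
  refine hbound.trans ?_
  have hratio : (k : ℝ) / (δ ^ 2 * P.card) ≤ (M : ℝ) ^ 581 / y := by
    rw [div_le_div_iff₀ (by positivity) (by linarith)]
    calc (k : ℝ) * y ≤ 3 * M * (3 * b * M * P.card) := by gcongr
      _ = K * M ^ 2 * M ^ 578 * (δ ^ 2 * P.card) := by
          rw [hK, hδ, div_pow, ← pow_mul, mul_pow]
          field_simp
          ring
      _ ≤ (M : ℝ) * M ^ 2 * M ^ 578 * (δ ^ 2 * P.card) := by gcongr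
      _ = _ := by ring
  obtain ⟨η, hη⟩ : ∃ η : ℝ, η = 581 / b := ⟨_, rfl⟩
  have hb0 : (0 : ℝ) < b := Nat.cast_pos.2 (by omega)
  have hη1 : η ≤ 1 := by
    rw [hη, div_le_one hb0]
    exact_mod_cast (show 581 ≤ b by omega)
  have hq : (M : ℝ) ^ 581 / y = (y : ℝ) ^ (η - 1) := by
    rw [Real.rpow_sub (by linarith), Real.rpow_one]
    congr 1
    rw [hy, Nat.cast_pow, ← Real.rpow_natCast_mul (Nat.cast_nonneg M), hη,
      mul_div_cancel₀ _ hb0.ne', ← Real.rpow_natCast]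
    norm_num
  have hpowk : ((k : ℝ) / (δ ^ 2 * P.card)) ^ k ≤ ((X : ℝ) * X) ^ (η - 1) := by
    refine (pow_le_pow_left₀ (by positivity) (hratio.trans hq.le) k).trans ?_
    rw [← Real.rpow_mul_natCast (Nat.cast_nonneg y), mul_comm (η - 1),
      Real.rpow_natCast_mul (Nat.cast_nonneg y)]
    exact Real.rpow_le_rpow_of_nonpos (by positivity) hupR (by linarith)
  refine (mul_le_mul_of_nonneg_left hpowk (by positivity)).trans (le_of_eq ?_)
  rw [mul_assoc, ← Real.rpow_one_add' (by positivity) (by rw [hη]; ring_nf; positivity),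
    hy, Nat.cast_pow]
  congr 1
  rw [Real.mul_rpow (by linarith) (by linarith), ← Real.rpow_add (by linarith), hη]
  congr 1
  ring

open scoped Classical in
/-- The primes `p ≤ X` with no prime primitive root `≤ (log p) ^ B`. -/
def exceptionalPrimes (B X : ℕ) : Finset ℕ :=
  (Icc 1 X).filter fun p => p.Prime ∧ ∀ l : ℕ, l.Prime → (l : ℝ) ≤ Real.log p ^ B →
    orderOf (l : ZMod p) ≠ p - 1

/-- **All but `X ^ ε` primes have a prime primitive root below a power of their logarithm.** -/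
theorem exists_card_exceptional_le {ε : ℝ} (hε : 0 < ε) : ∃ B : ℕ, ∀ᶠ X : ℕ in atTop,
    ((exceptionalPrimes B X).card : ℝ) ≤ (X : ℝ) ^ ε := by
  obtain ⟨κ, hκ, hroot⟩ := exists_root_of_small_sums
  obtain ⟨b, hb⟩ : ∃ b : ℕ, b = ⌈2400 / ε⌉₊ + 600 := ⟨_, rfl⟩
  obtain ⟨M₀, hbadb⟩ := exists_card_bad_le hκ b (by omega)
  refine ⟨b + 1, ?_⟩
  have hb0 : (0 : ℝ) < b := Nat.cast_pos.2 (by omega)
  have hexpo : (1162 : ℝ) / b ≤ ε / 2 := by
    rw [div_le_iff₀ hb0]
    have h1 : (2400 : ℝ) / ε ≤ b := (Nat.le_ceil _).trans (Nat.cast_le.2 (by omega))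
    rw [div_le_iff₀ hε] at h1
    linarith
  have hlim := tendsto_natCast_atTop_atTop (R := ℝ)
  have hlogt : Tendsto (fun X : ℕ => Real.log (X : ℝ)) atTop atTop :=
    Real.tendsto_log_atTop.comp hlim
  have hsmall : ∀ᶠ X : ℕ in atTop,
      4 * 2 ^ b * Real.log (X : ℝ) ^ b ≤ (X : ℝ) ^ (ε / 2) := by
    have h := (isLittleO_log_rpow_rpow_atTop (b : ℝ) (half_pos hε)).tendsto_div_nhds_zero
    filter_upwards [hlim.eventually (h.eventually (eventually_le_nhds
      (show (0 : ℝ) < 1 / (4 * 2 ^ b) by positivity))), eventually_ge_atTop 1] with X hX hX1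
    have hpos : (0 : ℝ) < (X : ℝ) ^ (ε / 2) := Real.rpow_pos_of_pos (Nat.cast_pos.2 hX1) _
    rw [Real.rpow_natCast, div_le_iff₀ hpos] at hX
    have h2 := mul_le_mul_of_nonneg_left hX (show (0 : ℝ) ≤ 4 * 2 ^ b by positivity)
    refine h2.trans (le_of_eq ?_)
    field_simp
  filter_upwards [hlogt.eventually_ge_atTop ((M₀ : ℝ) + 64),
    hlogt.eventually_ge_atTop (4 / ε * (8 / ε) ^ b), hsmall, eventually_ge_atTop 2]
    with X hX1 hX2 hX3 hX4
  obtain ⟨M, hM⟩ : ∃ M, M = ⌈Real.log (X : ℝ)⌉₊ := ⟨_, rfl⟩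
  have hlog : Real.log (X : ℝ) ≤ M := hM ▸ Nat.le_ceil _
  have hM0 : M₀ ≤ M := Nat.cast_le (α := ℝ).1 (by linarith [(Nat.cast_nonneg M₀ : (0 : ℝ) ≤ M₀)])
  have hM2 : (M : ℝ) ≤ 2 * Real.log (X : ℝ) := by
    rw [hM]
    linarith [Nat.ceil_lt_add_one (show 0 ≤ Real.log (X : ℝ) by linarith [(Nat.cast_nonneg M₀ :
      (0 : ℝ) ≤ M₀)]), (Nat.cast_nonneg M₀ : (0 : ℝ) ≤ M₀)]
  obtain ⟨P, hP⟩ : ∃ P, P = Nat.primesLE (M ^ b) := ⟨_, rfl⟩
  obtain ⟨T, hT⟩ : ∃ T, T = κ / (3 * (M : ℝ)) ^ 289 * P.card := ⟨_, rfl⟩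
  have hM64 : (64 : ℝ) ≤ M := by linarith [(Nat.cast_nonneg M₀ : (0 : ℝ) ≤ M₀)]
  have hM64' : 64 ≤ M := by exact_mod_cast hM64
  have hsub : exceptionalPrimes (b + 1) X ⊆
      Icc 1 (M ^ b) ∪ Icc 1 ⌊(X : ℝ) ^ (ε / 4)⌋₊ ∪ badPrimes P X T := by
    intro p hp
    classical
    rw [exceptionalPrimes, mem_filter, mem_Icc] at hp
    obtain ⟨⟨hp1, hpX⟩, hpp, hno⟩ := hp
    rw [mem_union, mem_union, mem_Icc, mem_Icc]
    by_contra! hcon
    obtain ⟨⟨hy, hsm⟩, hgood⟩ := hcon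
    have := Fact.mk hpp
    have hpy := hy hp1
    have hpe : (X : ℝ) ^ (ε / 4) < p :=
      (Nat.floor_lt (Real.rpow_nonneg (Nat.cast_nonneg X) _)).1 (hsm hp1)
    have hne : P.Nonempty := ⟨2, hP ▸ Nat.mem_primesLE.2
      ⟨le_trans (by omega) (Nat.le_self_pow (show b ≠ 0 by omega) M), Nat.prime_two⟩⟩
    have hunit : ∀ l ∈ P, (l : ZMod p) ≠ 0 := fun l hl h0 => by
      rw [hP, Nat.mem_primesLE] at hl
      have := Nat.le_of_dvd hl.2.pos ((ZMod.natCast_eq_zero_iff l p).1 h0)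
      omega
    have hchar : ∀ χ : MulChar (ZMod p) ℂ, χ ≠ 1 → ‖∑ l ∈ P, χ (l : ZMod p)‖ ≤
        κ / (((p - 1).primeFactors.card : ℝ) + 2) ^ 289 * P.card := fun χ hχ => by
      have h1 : ‖∑ l ∈ P, χ (l : ZMod p)‖ ≤ T := by
        by_contra hbig
        refine hgood ?_
        simp only [badPrimes, mem_filter, mem_Icc]
        exact ⟨⟨hp1, hpX⟩, hpp, χ, hχ, not_le.1 hbig⟩
      refine h1.trans ?_
      rw [hT]
      gcongr
      have : NeZero (p - 1) := ⟨by have := hpp.two_le; omega⟩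
      have h2 := GRHProgressions.card_primeFactors_le (p - 1)
      have h3 : Real.log ((p - 1 : ℕ) : ℝ) ≤ Real.log X :=
        Real.log_le_log (Nat.cast_pos.2 (NeZero.pos _)) (Nat.cast_le.2 (by omega))
      linarith
    obtain ⟨l, hl, hord⟩ := hroot p P hne hunit hchar
    rw [hP, Nat.mem_primesLE] at hl
    refine hno l hl.2 ?_ hord
    have hlp : ε / 4 * Real.log X ≤ Real.log p := by
      rw [← Real.log_rpow (Nat.cast_pos.2 (by omega))]
      exact Real.log_le_log (Real.rpow_pos_of_pos (Nat.cast_pos.2 (by omega)) _) hpe.le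
    have hbig : (8 / ε) ^ b ≤ Real.log p := by
      refine le_trans ?_ hlp
      have h := mul_le_mul_of_nonneg_left hX2 (show 0 ≤ ε / 4 by positivity)
      refine le_trans (le_of_eq ?_) h
      field_simp
    calc (l : ℝ) ≤ (M : ℝ) ^ b := by exact_mod_cast hl.1
      _ ≤ (8 / ε * Real.log p) ^ b := by
          refine pow_le_pow_left₀ (Nat.cast_nonneg M) (hM2.trans ?_) b
          refine le_trans (le_of_eq ?_) (mul_le_mul_of_nonneg_left hlp (by positivity))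
          field_simp
          ring
      _ = (8 / ε) ^ b * Real.log p ^ b := mul_pow _ _ _
      _ ≤ Real.log p * Real.log p ^ b :=
          mul_le_mul_of_nonneg_right hbig (pow_nonneg (Real.log_natCast_nonneg p) b)
      _ = _ := (pow_succ' _ b).symm
  refine (Nat.cast_le.2 ((card_le_card hsub).trans ((card_union_le _ _).trans
    (Nat.add_le_add_right (card_union_le _ _) _)))).trans ?_
  push_cast
  rw [Nat.card_Icc, Nat.card_Icc, Nat.add_sub_cancel, Nat.add_sub_cancel, Nat.cast_pow]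
  have hXp : (1 : ℝ) ≤ X := Nat.one_le_cast.2 (by omega)
  have hhalf : 1 ≤ (X : ℝ) ^ (ε / 2) := Real.one_le_rpow hXp (by positivity)
  have hy1 : (1 : ℝ) ≤ (M : ℝ) ^ b := one_le_pow₀ (by linarith)
  have hbad := hbadb X M (by omega) hM0 hlog
  rw [← hP, ← hT] at hbad
  have h4 : (⌊(X : ℝ) ^ (ε / 4)⌋₊ : ℝ) ≤ (M : ℝ) ^ b * (X : ℝ) ^ (ε / 2) :=
    ((Nat.floor_le (by positivity)).trans
      (Real.rpow_le_rpow_of_exponent_le hXp (by linarith))).trans
      (le_mul_of_one_le_left (by positivity) hy1)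
  have h5 := le_mul_of_one_le_right (show (0 : ℝ) ≤ (M : ℝ) ^ b by positivity) hhalf
  have h6 : 2 * (M : ℝ) ^ b * (X : ℝ) ^ ((1162 : ℝ) / b) ≤
      2 * ((M : ℝ) ^ b * (X : ℝ) ^ (ε / 2)) := by
    rw [mul_assoc]
    gcongr
  have h7 : 4 * ((M : ℝ) ^ b * (X : ℝ) ^ (ε / 2)) ≤ (X : ℝ) ^ ε := by
    rw [← mul_assoc, show (X : ℝ) ^ ε = (X : ℝ) ^ (ε / 2) * (X : ℝ) ^ (ε / 2) by
      rw [← Real.rpow_add (by linarith)]; ring_nf]
    refine mul_le_mul_of_nonneg_right (le_trans ?_ hX3) (by positivity)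
    rw [mul_assoc, ← mul_pow]
    gcongr
  linarith

end FA.AlmostAllRoot

end
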