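import Fermat.Agent.BarbanDavenportHalberstam.Basic
import Mathlib.NumberTheory.ArithmeticFunction.Misc

/-!
# High moments of character sums over primes

`(∑_{l ∈ P} χ l) ^ k` is a sum over `n ≤ y ^ k` with coefficients `≤ k!`, so the large sieve bounds
the number of primes `p ≤ Q` with a large sum for some `χ ≠ 1` modulo `p`.
-/

set_option autoImplicit false

noncomputable section

namespace FA.AlmostAllRoot

open Finset
open FA.BombieriVinogradov (primChars mem_primChars)
open scoped ArithmeticFunction.Omega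

/-- The number of ordered `k`-tuples from `P` with product `n`. -/
def repCount (P : Finset ℕ) : ℕ → ℕ → ℕ
  | 0, n => if n = 1 then 1 else 0
  | k + 1, n => ∑ l ∈ P, if l ∣ n then repCount P k (n / l) else 0

variable {P : Finset ℕ} {y : ℕ}

theorem repCount_support (hP : ∀ l ∈ P, l.Prime ∧ l ≤ y) : ∀ (k n : ℕ), repCount P k n ≠ 0 →
    n ≠ 0 ∧ Ω n = k ∧ n ≤ y ^ k
  | 0, n, h => by
    rw [repCount] at h
    split_ifs at h with h1
    · simp [h1]
    · exact absurd rfl h
  | k + 1, n, h => by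
    rw [repCount] at h
    obtain ⟨l, hl, hne⟩ := exists_ne_zero_of_sum_ne_zero h
    split_ifs at hne with hd
    · obtain ⟨h0, hO, hle⟩ := repCount_support hP k _ hne
      obtain ⟨hlp, hly⟩ := hP l hl
      obtain ⟨m, rfl⟩ := hd
      rw [Nat.mul_div_cancel_left _ hlp.pos] at h0 hO hle
      refine ⟨mul_ne_zero hlp.ne_zero h0, ?_, ?_⟩
      · rw [ArithmeticFunction.cardFactors_mul hlp.ne_zero h0,
          ArithmeticFunction.cardFactors_apply_prime hlp, hO, add_comm]
      · rw [pow_succ']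
        exact Nat.mul_le_mul hly hle
    · exact absurd rfl hne

theorem repCount_le_factorial (hP : ∀ l ∈ P, l.Prime ∧ l ≤ y) : ∀ (k n : ℕ),
    repCount P k n ≤ k.factorial
  | 0, n => by
    rw [repCount]
    split_ifs <;> simp
  | k + 1, n => by
    by_cases h : repCount P (k + 1) n = 0
    · rw [h]
      exact Nat.zero_le _
    obtain ⟨h0, hO, -⟩ := repCount_support hP (k + 1) n h
    rw [repCount, ← sum_filter]
    refine (sum_le_card_nsmul _ _ _ fun l _ => repCount_le_factorial hP k _).trans ?_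
    rw [smul_eq_mul, Nat.factorial_succ]
    refine Nat.mul_le_mul_right _ ((card_le_card (t := n.primeFactors) fun l hl => ?_).trans ?_)
    · rw [mem_filter] at hl
      exact Nat.mem_primeFactors.2 ⟨(hP l hl.1).1, hl.2, h0⟩
    · rw [← hO, ArithmeticFunction.cardFactors_apply, Nat.primeFactors]
      exact List.toFinset_card_le _

/-- The expansion of a power of a sum over `P`. -/
theorem sum_pow_eq {R : Type*} [CommSemiring R] (hP : ∀ l ∈ P, l.Prime ∧ l ≤ y) (f : ℕ → R)
    (h1 : f 1 = 1) (hm : ∀ a b, f (a * b) = f a * f b) :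
    ∀ k : ℕ, (∑ l ∈ P, f l) ^ k = ∑ n ∈ Ioc 0 (y ^ k), (repCount P k n : R) * f n
  | 0 => by simp [repCount, h1, show Ioc 0 1 = ({1} : Finset ℕ) from rfl]
  | k + 1 => by
    rw [pow_succ', sum_pow_eq hP f h1 hm k, sum_mul]
    simp only [repCount, Nat.cast_sum, Nat.cast_ite, Nat.cast_zero, sum_mul]
    conv_rhs => rw [sum_comm]
    refine sum_congr rfl fun l hl => ?_
    obtain ⟨hlp, hly⟩ := hP l hl
    rw [mul_sum]
    have hinj : Set.InjOn (fun m => l * m) (Ioc 0 (y ^ k) : Finset ℕ) :=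
      fun a _ b _ h => Nat.eq_of_mul_eq_mul_left hlp.pos h
    symm
    rw [← sum_subset (s₁ := (Ioc 0 (y ^ k)).image fun m => l * m) (fun n hn => ?_)
      fun n hn hn' => ?_, sum_image hinj]
    · refine sum_congr rfl fun m _ => ?_
      rw [if_pos (dvd_mul_right l m), Nat.mul_div_cancel_left _ hlp.pos, hm]
      ring
    · obtain ⟨m, hmem, rfl⟩ := mem_image.1 hn
      rw [mem_Ioc] at hmem ⊢
      exact ⟨Nat.mul_pos hlp.pos hmem.1, by rw [pow_succ']; exact Nat.mul_le_mul hly hmem.2⟩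
    · split_ifs with hd
      · by_cases hr : repCount P k (n / l) = 0
        · simp [hr]
        · obtain ⟨h0, -, hle⟩ := repCount_support hP k _ hr
          exact absurd (mem_image.2 ⟨n / l, mem_Ioc.2 ⟨Nat.pos_of_ne_zero h0, hle⟩,
            Nat.mul_div_cancel' hd⟩) hn'
      · simp

theorem sum_repCount (hP : ∀ l ∈ P, l.Prime ∧ l ≤ y) (k : ℕ) :
    ∑ n ∈ Ioc 0 (y ^ k), repCount P k n = P.card ^ k := by
  have h := sum_pow_eq hP (fun _ => (1 : ℕ)) rfl (fun _ _ => rfl) k
  simpa using h.symm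

open scoped Classical in
/-- The primes `p ≤ Q` with a character sum over `P` exceeding `T`. -/
def badPrimes (P : Finset ℕ) (Q : ℕ) (T : ℝ) : Finset ℕ :=
  (Icc 1 Q).filter fun p => p.Prime ∧
    ∃ χ : DirichletCharacter ℂ p, χ ≠ 1 ∧ T < ‖∑ l ∈ P, χ (l : ZMod p)‖

/-- **Few primes have a large character sum.** -/
theorem card_badPrimes_le (hP : ∀ l ∈ P, l.Prime ∧ l ≤ y) (Q k : ℕ) {T : ℝ} (hT : 0 ≤ T) :
    ((badPrimes P Q T).card : ℝ) * T ^ (2 * k) ≤
      (((y : ℝ) ^ k + (Q : ℝ) * Q) * (k.factorial * (P.card : ℝ) ^ k)) := by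
  have hls := FA.BarbanDavenportHalberstam.largeSieve_chars_sharp Q 0 (y ^ k)
    (fun n => (repCount P k n : ℂ))
  simp only [zero_add, Complex.norm_natCast] at hls
  have hrhs : ∑ n ∈ Ioc 0 (y ^ k), (repCount P k n : ℝ) ^ 2 ≤
      k.factorial * (P.card : ℝ) ^ k := by
    have e : ((∑ n ∈ Ioc 0 (y ^ k), repCount P k n : ℕ) : ℝ) = (P.card : ℝ) ^ k := by
      rw [sum_repCount hP k, Nat.cast_pow]
    rw [← e, Nat.cast_sum, mul_sum]
    refine sum_le_sum fun n _ => ?_
    rw [pow_two]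
    exact mul_le_mul_of_nonneg_right (Nat.cast_le.2 (repCount_le_factorial hP k n))
      (Nat.cast_nonneg _)
  rw [Nat.cast_pow] at hls
  refine le_trans ?_ (hls.trans (mul_le_mul_of_nonneg_left hrhs (by positivity)))
  classical
  rw [← nsmul_eq_mul, ← sum_const]
  refine le_trans (sum_le_sum fun p hp => ?_) (sum_le_sum_of_subset_of_nonneg
    (fun p hp => (mem_filter.1 hp).1) fun p _ _ => by positivity)
  rw [badPrimes, mem_filter] at hp
  obtain ⟨-, hpp, χ, hχ, hbig⟩ := hp
  have := NeZero.mk hpp.ne_zero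
  have hprim : χ.IsPrimitive :=
    ((Nat.dvd_prime hpp).1 χ.conductor_dvd_level).resolve_left fun h =>
      hχ (DirichletCharacter.eq_one_iff_conductor_eq_one.2 h)
  have hratio : (1 : ℝ) ≤ (p : ℝ) / p.totient :=
    (one_le_div (Nat.cast_pos.2 (Nat.totient_pos.2 hpp.pos))).2
      (Nat.cast_le.2 (Nat.totient_le p))
  refine le_trans ?_ (le_mul_of_one_le_left (sum_nonneg fun _ _ => sq_nonneg _) hratio)
  refine le_trans ?_ (single_le_sum (fun χ' _ => sq_nonneg
    ‖∑ n ∈ Ioc 0 (y ^ k), (repCount P k n : ℂ) * χ' (n : ZMod p)‖) (mem_primChars.2 hprim))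
  rw [← sum_pow_eq hP (fun n => χ (n : ZMod p)) (by simp) (fun a b => by simp) k, norm_pow,
    ← pow_mul, mul_comm k 2]
  exact pow_le_pow_left₀ hT hbig.le _

end FA.AlmostAllRoot

end
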